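import Mathlib

/-!
# Coprime factorisations

The factorisations `u v`, `u < v`, into coprime factors of an odd number which is no square are
even in number unless it is a prime power.
-/

set_option autoImplicit false

noncomputable section

namespace FA.CMOddOrders

/-- A finite set with an involution without fixed points is even. -/
theorem even_card_of_involution {α : Type*} (s : Finset α) (g : α → α) (hmem : ∀ x ∈ s, g x ∈ s)
    (hinv : ∀ x ∈ s, g (g x) = x) (hfree : ∀ x ∈ s, g x ≠ x) : Even s.card := by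
  have h : ∑ _x ∈ s, (1 : ZMod 2) = 0 :=
    Finset.sum_involution (fun x _ => g x) (fun _ _ => by decide) (fun x hx _ => hfree x hx)
      hmem hinv
  rw [Finset.sum_const, nsmul_eq_mul, mul_one, ZMod.natCast_eq_zero_iff_even] at h
  exact h

/-- The smaller factors of the factorisations into two coprime factors. -/
def lowUnitary (n : ℕ) : Finset ℕ :=
  n.divisors.filter fun u => u * u < n ∧ u.Coprime (n / u)

theorem mem_lowUnitary {n u : ℕ} :
    u ∈ lowUnitary n ↔ ∃ v : ℕ, 0 < u ∧ u < v ∧ u.Coprime v ∧ u * v = n := by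
  rw [lowUnitary, Finset.mem_filter, Nat.mem_divisors]
  constructor
  · rintro ⟨⟨⟨v, rfl⟩, hn⟩, h, hco⟩
    have hu : 0 < u := Nat.pos_of_ne_zero (left_ne_zero_of_mul hn)
    rw [Nat.mul_div_cancel_left v hu] at hco
    exact ⟨v, hu, lt_of_mul_lt_mul_left h (Nat.zero_le _), hco, rfl⟩
  · rintro ⟨v, hu, huv, hco, rfl⟩
    refine ⟨⟨dvd_mul_right _ _, (Nat.mul_pos hu (hu.trans huv)).ne'⟩,
      Nat.mul_lt_mul_of_pos_left huv hu, ?_⟩
    rwa [Nat.mul_div_cancel_left v hu]

/-- **A prime power has one factorisation.** -/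
theorem lowUnitary_prime_pow {p k : ℕ} (hp : p.Prime) (hk : k ≠ 0) :
    lowUnitary (p ^ k) = {1} := by
  ext u
  rw [mem_lowUnitary, Finset.mem_singleton]
  constructor
  · rintro ⟨v, -, huv, hco, h⟩
    obtain ⟨i, -, rfl⟩ := (Nat.dvd_prime_pow hp).1 (h ▸ dvd_mul_right u v)
    rcases Nat.eq_zero_or_pos i with rfl | hi
    · exact pow_zero p
    obtain ⟨j, -, rfl⟩ := (Nat.dvd_prime_pow hp).1 (h ▸ dvd_mul_left v _)
    rcases Nat.eq_zero_or_pos j with rfl | hj
    · rw [pow_zero] at huv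
      exact absurd huv (by have := pow_pos hp.pos i; omega)
    exact absurd ((Nat.coprime_pow_left_iff hi _ _).1 ((Nat.coprime_pow_right_iff hj _ _).1 hco))
      (by rw [Nat.coprime_self]; exact hp.one_lt.ne')
  · rintro rfl
    exact ⟨p ^ k, one_pos, Nat.one_lt_pow hk hp.one_lt, Nat.coprime_one_left _, one_mul _⟩

/-- The factors of a number prime to their cofactors. -/
def unitary (n : ℕ) : Finset ℕ := n.divisors.filter fun u => u.Coprime (n / u)

theorem mem_unitary {n u : ℕ} :
    u ∈ unitary n ↔ ∃ v : ℕ, 0 < u ∧ 0 < v ∧ u.Coprime v ∧ u * v = n := by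
  rw [unitary, Finset.mem_filter, Nat.mem_divisors]
  constructor
  · rintro ⟨⟨⟨v, rfl⟩, hn⟩, hco⟩
    have hu : 0 < u := Nat.pos_of_ne_zero (left_ne_zero_of_mul hn)
    rw [Nat.mul_div_cancel_left v hu] at hco
    exact ⟨v, hu, Nat.pos_of_ne_zero (right_ne_zero_of_mul hn), hco, rfl⟩
  · rintro ⟨v, hu, hv, hco, rfl⟩
    refine ⟨⟨dvd_mul_right _ _, (Nat.mul_pos hu hv).ne'⟩, ?_⟩
    rwa [Nat.mul_div_cancel_left v hu]

/-- **With two primes the number of factorisations is even.** -/
theorem even_card_lowUnitary {p k M : ℕ} (hp : p.Prime) (hk : k ≠ 0) (hM : 1 < M)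
    (hpM : ¬ p ∣ M) (hsq : ¬ IsSquare (p ^ k * M)) : Even (lowUnitary (p ^ k * M)).card := by
  set N := p ^ k * M with hN
  have hpk : 0 < p ^ k := pow_pos hp.pos k
  have hN0 : 0 < N := Nat.mul_pos hpk (by omega)
  -- the factor prime to `p`
  have hsplit : ∀ u v : ℕ, u.Coprime v → u * v = N → ¬ p ∣ u →
      ∃ w, v = p ^ k * w ∧ u * w = M ∧ u.Coprime w := by
    intro u v hco huv hpu
    have hdu : (p ^ k).Coprime u := Nat.Coprime.pow_left _ (hp.coprime_iff_not_dvd.2 hpu)
    obtain ⟨w, rfl⟩ : p ^ k ∣ v := hdu.dvd_of_dvd_mul_left ⟨M, huv⟩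
    exact ⟨w, rfl, Nat.eq_of_mul_eq_mul_left hpk (by rw [← mul_left_comm, huv]),
      hco.coprime_dvd_right (dvd_mul_left _ _)⟩
  have hcard : (lowUnitary N).card = (unitary M).card := by
    refine Finset.card_nbij' (fun u => if p ∣ u then N / u else u)
      (fun w => if w * w < N then w else N / w) ?_ ?_ ?_ ?_
    · intro u hu
      obtain ⟨v, hu0, huv, hco, h⟩ := mem_lowUnitary.1 hu
      refine mem_unitary.2 ?_
      dsimp only
      split_ifs with hpu
      · rw [show N / u = v by rw [← h, Nat.mul_div_cancel_left v hu0]]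
        have hpv : ¬ p ∣ v := fun hpv => hp.not_dvd_one (hco ▸ Nat.dvd_gcd hpu hpv)
        obtain ⟨w, rfl, hw, hcow⟩ := hsplit v u hco.symm (by rw [mul_comm, h]) hpv
        exact ⟨w, by omega, Nat.pos_of_ne_zero (right_ne_zero_of_mul hu0.ne'), hcow, hw⟩
      · obtain ⟨w, rfl, hw, hcow⟩ := hsplit u v hco h hpu
        exact ⟨w, hu0, Nat.pos_of_ne_zero (right_ne_zero_of_mul (hu0.trans huv).ne'), hcow, hw⟩
    · intro w hw
      obtain ⟨x, hw0, hx0, hco, h⟩ := mem_unitary.1 hw
      have hwN : w * (p ^ k * x) = N := by rw [hN, ← h]; ring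
      have hpw : ¬ p ∣ w := fun hd => hpM (hd.trans ⟨x, h.symm⟩)
      have hco' : w.Coprime (p ^ k * x) := Nat.Coprime.mul_right
        (Nat.Coprime.pow_right _ (hp.coprime_iff_not_dvd.2 hpw).symm) hco
      refine mem_lowUnitary.2 ?_
      dsimp only
      split_ifs with hlt
      · exact ⟨_, hw0, lt_of_mul_lt_mul_left (hlt.trans_eq hwN.symm) (Nat.zero_le _), hco', hwN⟩
      · rw [← hwN, Nat.mul_div_cancel_left _ hw0]
        refine ⟨w, Nat.mul_pos hpk hx0, ?_, hco'.symm, mul_comm _ _⟩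
        by_contra hle
        have hne : w ≠ p ^ k * x := fun e => hsq ⟨w, by
          calc N = w * (p ^ k * x) := hwN.symm
            _ = w * w := by rw [← e]⟩
        exact hlt (hwN ▸ Nat.mul_lt_mul_of_pos_left (by omega) hw0)
    · intro u hu
      obtain ⟨v, hu0, huv, hco, h⟩ := mem_lowUnitary.1 hu
      dsimp only
      split_ifs with hpu h1 h2
      · rw [← h, Nat.mul_div_cancel_left v hu0] at h1
        exact absurd h1 (by nlinarith)
      · rw [← h, Nat.mul_div_cancel_left v hu0, Nat.mul_div_cancel _ (hu0.trans huv)]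
      · rfl
      · exact absurd (h ▸ Nat.mul_lt_mul_of_pos_left huv hu0) h2
    · intro w hw
      obtain ⟨x, hw0, hx0, hco, h⟩ := mem_unitary.1 hw
      have hwN : w * (p ^ k * x) = N := by rw [hN, ← h]; ring
      have hpw : ¬ p ∣ w := fun hd => hpM (hd.trans ⟨x, h.symm⟩)
      dsimp only
      by_cases hlt : w * w < N
      · rw [if_pos hlt, if_neg hpw]
      · rw [if_neg hlt, if_pos (by
          rw [← hwN, Nat.mul_div_cancel_left _ hw0]
          exact dvd_mul_of_dvd_left (dvd_pow_self p hk) _)]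
        exact Nat.div_div_self ⟨_, hwN.symm⟩ hN0.ne'
  rw [hcard]
  refine even_card_of_involution _ (fun w => M / w) (fun w hw => ?_) (fun w hw => ?_)
    fun w hw e => ?_
  · obtain ⟨x, hw0, hx0, hco, h⟩ := mem_unitary.1 hw
    exact mem_unitary.2 ⟨w, by
      rw [show M / w = x by rw [← h, Nat.mul_div_cancel_left x hw0]]
      exact ⟨hx0, hw0, hco.symm, by rw [mul_comm, h]⟩⟩
  · obtain ⟨x, hw0, -, -, h⟩ := mem_unitary.1 hw
    exact Nat.div_div_self ⟨x, h.symm⟩ (by omega)
  · obtain ⟨x, hw0, -, hco, h⟩ := mem_unitary.1 hw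
    rw [← h, Nat.mul_div_cancel_left x hw0] at e
    subst e
    rw [Nat.coprime_self] at hco
    rw [hco, one_mul] at h
    omega

/-- **The parity of the number of factorisations.** -/
theorem odd_card_lowUnitary_iff {N : ℕ} (h4 : N % 4 = 3) :
    Odd (lowUnitary N).card ↔ ∃ p k : ℕ, p.Prime ∧ N = p ^ k := by
  constructor
  · intro hodd
    obtain ⟨p, hp, hpN⟩ := Nat.exists_prime_and_dvd (show N ≠ 1 by omega)
    obtain ⟨k, M, hpM, hNM⟩ := Nat.exists_eq_pow_mul_and_not_dvd (show N ≠ 0 by omega) p hp.ne_one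
    refine ⟨p, k, hp, ?_⟩
    by_contra hne
    have hM : 1 < M := by
      rcases Nat.lt_trichotomy M 1 with h | h | h
      · rw [show M = 0 by omega, mul_zero] at hNM; omega
      · exact absurd (by rw [hNM, h, mul_one]) hne
      · exact h
    have hk : k ≠ 0 := fun e => hpM (by rwa [hNM, e, pow_zero, one_mul] at hpN)
    refine Nat.not_even_iff_odd.2 hodd (hNM ▸ even_card_lowUnitary hp hk hM hpM ?_)
    rintro ⟨r, hr⟩
    rw [← hNM] at hr
    have h := congrArg (· % 4) hr
    simp only [h4, Nat.mul_mod r r 4] at h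
    have hr4 : r % 4 < 4 := Nat.mod_lt _ (by norm_num)
    generalize r % 4 = y at h hr4
    interval_cases y <;> simp at h
  · rintro ⟨p, k, hp, rfl⟩
    rw [lowUnitary_prime_pow hp (by rintro rfl; simp at h4), Finset.card_singleton]
    exact odd_one

end FA.CMOddOrders

end
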