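import Fermat.Agent.Tau.FieldGenus
import Fermat.Agent.Tau.CMFields
import Fermat.Agent.CMOddOrders.Divisors

/-!
# The parity of the class number of an odd discriminant

Changing the sign of the middle coefficient pairs the reduced forms apart from the ambiguous ones,
and for odd discriminant `-N` these are the factorisations of `N` into coprime `u < v`.
-/

set_option autoImplicit false
set_option linter.style.haveILetI false

noncomputable section

open FA.Singular

namespace FA.CMOddOrders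

/-- **The forms off the ambiguous ones come in pairs.** -/
theorem even_nonambiguous (D : ℤ) :
    Even {f | f ∈ Red D ∧ ¬ FA.FieldClassBound.Amb f}.ncard := by
  have hfin : {f | f ∈ Red D ∧ ¬ FA.FieldClassBound.Amb f}.Finite :=
    (red_finite D).subset fun f hf => hf.1
  rw [Set.ncard_eq_toFinset_card _ hfin]
  refine even_card_of_involution _ (fun f => (f.1, -f.2.1, f.2.2)) ?_ ?_ ?_
  · rintro ⟨a, b, c⟩ hf
    simp only [Set.Finite.mem_toFinset, Set.mem_ofPred_eq, Red, FA.FieldClassBound.Amb] at hf ⊢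
    obtain ⟨⟨hd, hg, ha, hb, hc, htie⟩, hamb⟩ := hf
    obtain ⟨hb1, hb2⟩ := abs_le.1 hb
    refine ⟨⟨by rw [neg_sq]; exact hd, by rw [Int.gcd_neg]; exact hg, ha, by rwa [abs_neg], hc,
      fun h => ?_⟩, ?_⟩
    · rw [abs_neg] at h
      rcases h with h | h
      · have := htie (Or.inl h)
        rw [abs_of_nonneg this] at h
        exact absurd (Or.inr (Or.inl h)) hamb
      · exact absurd (Or.inr (Or.inr h)) hamb
    · rintro (h | h | h)
      · exact hamb (Or.inl (by omega))
      · have hab : |b| = a := by rw [← abs_neg, h, abs_of_pos ha]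
        have := htie (Or.inl hab)
        omega
      · exact hamb (Or.inr (Or.inr h))
  · rintro ⟨a, b, c⟩ -
    simp
  · rintro ⟨a, b, c⟩ hf e
    simp only [Set.Finite.mem_toFinset, Set.mem_ofPred_eq, FA.FieldClassBound.Amb] at hf
    simp only [Prod.mk.injEq] at e
    exact hf.2 (Or.inl (by omega))

/-- A common divisor of `u` and `v` in the two shapes. -/
theorem coprime_of_primitive {u v : ℕ} {a b c : ℤ} (hodd : ¬ 2 ∣ u)
    (hg : Int.gcd (Int.gcd a b) c = 1)
    (h : ∀ q : ℤ, q ∣ u → q ∣ v → q ∣ 4 * a ∧ q ∣ 4 * b ∧ q ∣ 4 * c) : u.Coprime v := by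
  refine Nat.coprime_of_dvd fun q hq hqu hqv => ?_
  have hq4 : IsCoprime (q : ℤ) 4 := by
    have h2 : q.Coprime 2 := (Nat.coprime_primes hq Nat.prime_two).2 fun e => hodd (e ▸ hqu)
    exact Int.isCoprime_iff_nat_coprime.2 (by simpa using h2.pow_right 2)
  obtain ⟨h1, h2, h3⟩ := h q (Int.natCast_dvd_natCast.2 hqu) (Int.natCast_dvd_natCast.2 hqv)
  have hd := Int.dvd_coe_gcd (Int.dvd_coe_gcd (hq4.dvd_of_dvd_mul_left h1)
    (hq4.dvd_of_dvd_mul_left h2)) (hq4.dvd_of_dvd_mul_left h3)
  rw [hg, Nat.cast_one] at hd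
  exact hq.not_dvd_one (Int.natCast_dvd_natCast.1 (by exact_mod_cast hd))

/-- A form whose coefficients divide coprime numbers is primitive. -/
theorem primitive_of_coprime {u v : ℕ} {a b c : ℤ} (hco : u.Coprime v)
    (h : ∀ g : ℤ, g ∣ a → g ∣ b → g ∣ c → g ∣ u ∧ g ∣ v) : Int.gcd (Int.gcd a b) c = 1 := by
  obtain ⟨h1, h2⟩ := h _ ((Int.gcd_dvd_left _ c).trans (Int.gcd_dvd_left a b))
    ((Int.gcd_dvd_left _ c).trans (Int.gcd_dvd_right a b)) (Int.gcd_dvd_right _ c)
  have hd := Nat.dvd_gcd (Int.natCast_dvd_natCast.1 h1) (Int.natCast_dvd_natCast.1 h2)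
  rw [hco] at hd
  exact Nat.dvd_one.1 hd

/-- **The ambiguous forms of an odd discriminant.** -/
theorem ncard_ambiguous {N : ℕ} (h4 : N % 4 = 3) :
    {f | f ∈ Red (-(N : ℤ)) ∧ FA.FieldClassBound.Amb f}.ncard = (lowUnitary N).card := by
  rw [← Set.ncard_coe_finset]
  refine Set.BijOn.ncard_eq (f := fun f : ℤ × ℤ × ℤ =>
    if f.2.1 = f.1 then f.1.natAbs else (2 * f.1 - f.2.1).natAbs) ⟨?_, ?_, ?_⟩
  · rintro ⟨a, b, c⟩ ⟨⟨hd, hg, ha, hb, hc, hbd⟩, hamb⟩
    simp only at hd hg ha hb hc hbd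
    rw [Finset.mem_coe, mem_lowUnitary]
    simp only
    obtain ⟨hb1, hb2⟩ := abs_le.1 hb
    have hodd : ∀ u w : ℕ, u * w = N → ¬ 2 ∣ u := fun u w huw h2 => by
      have : 2 ∣ N := huw ▸ dvd_mul_of_dvd_left h2 w
      omega
    split_ifs with hba
    · subst hba
      have hv : b * (4 * c - b) = (N : ℤ) := by linear_combination -hd
      have huv : b.natAbs * (4 * c - b).natAbs = N := by
        rw [← Int.natAbs_mul, hv, Int.natAbs_natCast]
      refine ⟨(4 * c - b).natAbs, by omega, by omega,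
        coprime_of_primitive (hodd _ _ huv) hg fun q h1 h2 => ?_, huv⟩
      rw [Int.dvd_natAbs] at h1 h2
      exact ⟨dvd_mul_of_dvd_right h1 4, dvd_mul_of_dvd_right h1 4,
        by simpa using dvd_add h2 h1⟩
    · have hac : a = c := by
        rcases hamb with h | h | h
        · simp only at h; subst h
          have h2 : (4 * a * c : ℤ) = N := by linarith
          have : (4 : ℤ) ∣ (N : ℤ) := ⟨a * c, by rw [← h2]; ring⟩
          omega
        · exact absurd h hba
        · exact h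
      subst hac
      have hb0 := hbd (Or.inr rfl)
      have hbne : b ≠ 0 := by
        rintro rfl
        have h2 : (4 * a * a : ℤ) = N := by linarith
        have : (4 : ℤ) ∣ (N : ℤ) := ⟨a * a, by rw [← h2]; ring⟩
        omega
      have huv : (2 * a - b).natAbs * (2 * a + b).natAbs = N := by
        rw [← Int.natAbs_mul, show (2 * a - b) * (2 * a + b) = (N : ℤ) by linear_combination -hd,
          Int.natAbs_natCast]
      refine ⟨(2 * a + b).natAbs, by omega, by omega,
        coprime_of_primitive (hodd _ _ huv) hg fun q h1 h2 => ?_, huv⟩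
      rw [Int.dvd_natAbs] at h1 h2
      have ha4 : q ∣ 4 * a := by
        rw [show 4 * a = (2 * a + b) + (2 * a - b) by ring]
        exact dvd_add h2 h1
      refine ⟨ha4, ?_, ha4⟩
      rw [show 4 * b = 2 * ((2 * a + b) - (2 * a - b)) by ring]
      exact dvd_mul_of_dvd_right (dvd_sub h2 h1) 2
  · rintro ⟨a, b, c⟩ ⟨⟨hd, -, ha, hb, hc, hbd⟩, hamb⟩ ⟨a', b', c'⟩
      ⟨⟨hd', -, ha', hb', hc', hbd'⟩, hamb'⟩ heq
    simp only [FA.FieldClassBound.Amb] at hd ha hb hc hbd hd' ha' hb' hc' hbd' hamb hamb' heq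
    have hb0 : ∀ x y z : ℤ, y ^ 2 - 4 * x * z = -(N : ℤ) → y ≠ 0 := fun x y z h0 hy => by
      subst hy
      have : (4 : ℤ) ∣ (N : ℤ) := ⟨x * z, by linarith⟩
      omega
    have h1 := hb0 a b c hd
    have h1' := hb0 a' b' c' hd'
    obtain ⟨hb1, hb2⟩ := abs_le.1 hb
    obtain ⟨hb1', hb2'⟩ := abs_le.1 hb'
    split_ifs at heq with h h' h'
    · subst h h'
      have : b = b' := by omega
      subst this
      simp only [Prod.mk.injEq, true_and]
      exact mul_left_cancel₀ (mul_ne_zero four_ne_zero h1) (by linear_combination hd' - hd)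
    · have hac : a' = c' := (hamb'.resolve_left h1').resolve_left h'
      subst h hac
      have hpos : 0 ≤ b' := hbd' (Or.inr rfl)
      have e : b = 2 * a' - b' := by omega
      have e2 : 4 * c - b = 2 * a' + b' := mul_left_cancel₀ h1 (by
        conv_rhs => rw [e]
        linear_combination hd' - hd)
      omega
    · have hac : a = c := (hamb.resolve_left h1).resolve_left h
      subst h' hac
      have hpos : 0 ≤ b := hbd (Or.inr rfl)
      have e : b' = 2 * a - b := by omega
      have e2 : 4 * c' - b' = 2 * a + b := mul_left_cancel₀ h1' (by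
        conv_rhs => rw [e]
        linear_combination hd - hd')
      omega
    · have hac : a = c := (hamb.resolve_left h1).resolve_left h
      have hac' : a' = c' := (hamb'.resolve_left h1').resolve_left h'
      subst hac hac'
      have e : 2 * a - b = 2 * a' - b' := by omega
      have e2 : 2 * a + b = 2 * a' + b' := mul_left_cancel₀ (a := 2 * a - b) (by omega) (by
        conv_rhs => rw [e]
        linear_combination hd' - hd)
      simp only [Prod.mk.injEq]
      omega
  · intro u hu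
    rw [Finset.mem_coe, mem_lowUnitary] at hu
    obtain ⟨v, hu0, huv, hco, rfl⟩ := hu
    obtain ⟨k, hk⟩ : 4 ∣ u + v := by
      have h1 : (u * v) % 4 = ((u % 4) * (v % 4)) % 4 := Nat.mul_mod u v 4
      have hu4 : u % 4 < 4 := Nat.mod_lt _ (by norm_num)
      have hv4 : v % 4 < 4 := Nat.mod_lt _ (by norm_num)
      have hsum : (u % 4 + v % 4) % 4 = 0 := by
        generalize u % 4 = x at h1 hu4
        generalize v % 4 = y at h1 hv4
        interval_cases x <;> interval_cases y <;> omega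
      omega
    have hk' : (u : ℤ) + v = 4 * k := by exact_mod_cast hk
    rcases le_or_gt (3 * u) v with h | h
    · have hd : (u : ℤ) ^ 2 - 4 * u * k = -((u * v : ℕ) : ℤ) := by
        push_cast; linear_combination (u : ℤ) * hk'
      have hg : Int.gcd (Int.gcd (u : ℤ) u) k = 1 := primitive_of_coprime hco fun g ha _ hc =>
        ⟨ha, by
          rw [show (v : ℤ) = 4 * k - u by omega]
          exact dvd_sub (dvd_mul_of_dvd_right hc 4) ha⟩
      refine ⟨(u, u, k), ⟨⟨hd, hg, show (0 : ℤ) < u by omega,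
        show |(u : ℤ)| ≤ u by simp, show (u : ℤ) ≤ k by omega,
        fun _ => show (0 : ℤ) ≤ u by omega⟩, Or.inr (Or.inl rfl)⟩, ?_⟩
      simp
    · have hw : 2 ∣ v - u := by omega
      obtain ⟨l, hl⟩ := hw
      have hl' : (v : ℤ) = u + 2 * l := by omega
      have hku : (2 : ℤ) * k = u + l := by omega
      have hd : (l : ℤ) ^ 2 - 4 * k * k = -((u * v : ℕ) : ℤ) := by
        push_cast
        rw [hl']
        linear_combination (-(2 : ℤ) * k - (u + l)) * hku
      have hg : Int.gcd (Int.gcd (k : ℤ) l) k = 1 := primitive_of_coprime hco fun g ha hb _ =>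
        ⟨by rw [show (u : ℤ) = 2 * k - l by omega]; exact dvd_sub (dvd_mul_of_dvd_right ha 2) hb,
          by rw [show (v : ℤ) = 2 * k + l by omega]; exact dvd_add (dvd_mul_of_dvd_right ha 2) hb⟩
      refine ⟨(k, l, k), ⟨⟨hd, hg, show (0 : ℤ) < k by omega,
        show |(l : ℤ)| ≤ k by rw [Nat.abs_cast]; omega, le_rfl,
        fun _ => show (0 : ℤ) ≤ l by omega⟩, Or.inr (Or.inr rfl)⟩, ?_⟩
      simp only
      rw [if_neg (by omega)]
      omega

/-- **The class number of an odd discriminant `-N` is odd iff `N` is a prime power.** -/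
theorem odd_ncard_red_iff {N : ℕ} (h4 : N % 4 = 3) :
    Odd (Red (-(N : ℤ))).ncard ↔ ∃ p k : ℕ, p.Prime ∧ N = p ^ k := by
  rw [← odd_card_lowUnitary_iff h4, ← ncard_ambiguous h4]
  have hfin := red_finite (-(N : ℤ))
  have h := Set.ncard_inter_add_ncard_sdiff_eq_ncard (Red (-(N : ℤ)))
    {f | FA.FieldClassBound.Amb f} hfin
  have e1 : Red (-(N : ℤ)) ∩ {f | FA.FieldClassBound.Amb f} =
      {f | f ∈ Red (-(N : ℤ)) ∧ FA.FieldClassBound.Amb f} := rfl
  have e2 : Red (-(N : ℤ)) \ {f | FA.FieldClassBound.Amb f} =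
      {f | f ∈ Red (-(N : ℤ)) ∧ ¬ FA.FieldClassBound.Amb f} := rfl
  rw [← h, e1, e2, Nat.odd_add, iff_true_right (even_nonambiguous _)]

/-- A prime power `≡ 3 (mod 4)` is an odd power of a prime `≡ 3 (mod 4)`. -/
theorem pow_mod_four {p k : ℕ} (hp : p.Prime) :
    p ^ k % 4 = 3 ↔ p % 4 = 3 ∧ Odd k := by
  rcases Nat.even_or_odd k with hk | hk
  · obtain ⟨j, rfl⟩ := hk
    refine iff_of_false (fun h => ?_) fun h => (Nat.not_odd_iff_even.2 ⟨j, rfl⟩) h.2
    rw [pow_add, Nat.mul_mod] at h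
    have : p ^ j % 4 < 4 := Nat.mod_lt _ (by norm_num)
    interval_cases p ^ j % 4 <;> simp at h
  · obtain ⟨j, rfl⟩ := hk
    rw [pow_succ, pow_mul, Nat.mul_mod, Nat.pow_mod, sq, Nat.mul_mod p p 4]
    have : p % 4 < 4 := Nat.mod_lt _ (by norm_num)
    rcases hp.eq_two_or_odd with rfl | hp2
    · refine iff_of_false (fun h => ?_) (by omega)
      revert h
      cases j <;> simp [zero_pow]
    · rcases (show p % 4 = 1 ∨ p % 4 = 3 by omega) with h | h <;> rw [h] <;> simp

/-- The discriminants of odd class number. -/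
theorem odd_ncard_red_iff_list {D : ℤ} (hD : D < 0) (h4 : D % 4 = 0 ∨ D % 4 = 1) :
    Odd (Red D).ncard ↔ D = -4 ∨ D = -8 ∨ D = -16 ∨
      ∃ p k : ℕ, p.Prime ∧ p % 4 = 3 ∧ Odd k ∧ (D = -(p : ℤ) ^ k ∨ D = -4 * (p : ℤ) ^ k) := by
  rcases h4 with h | h
  · obtain ⟨n, rfl⟩ : ∃ n : ℕ, D = -4 * (n : ℤ) := ⟨(-D / 4).toNat, by omega⟩
    haveI : NeZero n := ⟨by omega⟩
    rw [FA.RingClassJ.ncard_red_eq, FA.CMFields.odd_classNumber_iff]
    constructor
    · rintro (rfl | rfl | rfl | ⟨p, k, hp, hp4, hk, rfl⟩)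
      · exact Or.inl rfl
      · exact Or.inr (Or.inl rfl)
      · exact Or.inr (Or.inr (Or.inl rfl))
      · exact Or.inr (Or.inr (Or.inr ⟨p, k, hp, hp4, hk, Or.inr (by push_cast; rfl)⟩))
    · rintro (h | h | h | ⟨p, k, hp, hp4, hk, h | h⟩)
      · exact Or.inl (by omega)
      · exact Or.inr (Or.inl (by omega))
      · exact Or.inr (Or.inr (Or.inl (by omega)))
      · have : p ^ k % 4 = 3 := (pow_mod_four hp).2 ⟨hp4, hk⟩
        have h' : 4 * n = p ^ k := by exact_mod_cast (show (4 * n : ℤ) = (p : ℤ) ^ k by linarith)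
        omega
      · refine Or.inr (Or.inr (Or.inr ⟨p, k, hp, hp4, hk, ?_⟩))
        exact_mod_cast (show (n : ℤ) = (p : ℤ) ^ k by linarith)
  · obtain ⟨N, rfl⟩ : ∃ N : ℕ, D = -(N : ℤ) := ⟨(-D).toNat, by omega⟩
    have hN : N % 4 = 3 := by omega
    rw [odd_ncard_red_iff hN]
    constructor
    · rintro ⟨p, k, hp, rfl⟩
      obtain ⟨hp4, hk⟩ := (pow_mod_four hp).1 hN
      exact Or.inr (Or.inr (Or.inr ⟨p, k, hp, hp4, hk, Or.inl (by push_cast; rfl)⟩))
    · rintro (h | h | h | ⟨p, k, hp, -, -, h | h⟩)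
      · omega
      · omega
      · omega
      · exact ⟨p, k, hp, by exact_mod_cast (show (N : ℤ) = (p : ℤ) ^ k by linarith)⟩
      · have h' : N = 4 * p ^ k := by exact_mod_cast (show (N : ℤ) = 4 * (p : ℤ) ^ k by linarith)
        omega

end FA.CMOddOrders

end
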